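import Fermat.Agent.H95.S52FamilyBridge
import Fermat.Agent.H46.S52F
import Fermat.Agent.H4.FrobRelCor
import Fermat.Agent.H40.Hasse.Main
import Fermat.Agent.H38.A5

/-!
# P-S52 / WP-G: final assembly of the 3-5 switch

`s52_of_wpd`: the frozen statement S52 follows from the single statement `S52WPDStatement`
(WP-D: for integral models `W`, `W'` with `c₄(W') = rsC4 c₄ c₆ t₁`, `c₆(W') = rsC6 c₄ c₆ t₁`
there is an injective Galois-equivariant additive map `E[5] → E'[5]`).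

Ingredients: WP-E (`H95.S52_rs_exists_specialization`, `H95.S52_rs_modRepIsIrreducible_three`),
WP-F (`H46.exists_semistable_model`), WP-C (`H4.dvd_apOfModel_sub`), WP-B
(`H40.hasseRelation_reductionMod`), `H38.nontrivial_torsionBy_five_int`, and the Bezout /
Hessian certificates `H95.S52_bezout`, `H95.S52_hessian`.
-/

set_option autoImplicit false

namespace Fermat.Agent.H40

open WeierstrassCurve WeierstrassCurve.Affine Fermat.Agent.H38 Polynomial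

/-- **WP-D, as consumed by the final assembly.** -/
def S52WPDStatement : Prop :=
  ∀ (W W' : WeierstrassCurve ℤ) (t₁ : ℤ), W.Δ ≠ 0 → W'.Δ ≠ 0 →
    W'.c₄ = rsC4 W.c₄ W.c₆ t₁ → W'.c₆ = rsC6 W.c₄ W.c₆ t₁ →
    ∃ φ : Submodule.torsionBy ℤ
          ((W.map (Int.castRingHom ℚ))⁄(AlgebraicClosure ℚ)).Point ((5 : ℕ) : ℤ) →+
        Submodule.torsionBy ℤ
          ((W'.map (Int.castRingHom ℚ))⁄(AlgebraicClosure ℚ)).Point ((5 : ℕ) : ℤ),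
      Function.Injective φ ∧
      ∀ (σ : AlgebraicClosure ℚ ≃ₐ[ℚ] AlgebraicClosure ℚ) x, φ (σ • x) = σ • φ x

/-! ## Values of the family at integers -/

section values

variable (c₄ c₆ : ℤ)

lemma s52_eval_rsC4 (t : ℤ) : (rsC4 (C c₄) (C c₆) (X : ℤ[X])).eval t = rsC4 c₄ c₆ t := by
  have := map_rsC4 (Polynomial.evalRingHom t) (C c₄) (C c₆) (X : ℤ[X])
  simpa using this

lemma s52_eval_rsC6 (t : ℤ) : (rsC6 (C c₄) (C c₆) (X : ℤ[X])).eval t = rsC6 c₄ c₆ t := by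
  have := map_rsC6 (Polynomial.evalRingHom t) (C c₄) (C c₆) (X : ℤ[X])
  simpa using this

lemma s52_eval_rsDisc (t : ℤ) : (rsDisc (C c₄) (C c₆) (X : ℤ[X])).eval t = rsDisc c₄ c₆ t := by
  have := map_rsDisc (Polynomial.evalRingHom t) (C c₄) (C c₆) (X : ℤ[X])
  simpa using this

lemma s52_dvd_rsC4_sub {N t : ℤ} (h : N ∣ t) : N ∣ rsC4 c₄ c₆ t - c₄ := by
  have := Fermat.Agent.H46.dvd_eval_sub_eval_zero (rsC4 (C c₄) (C c₆) (X : ℤ[X])) h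
  rwa [s52_eval_rsC4, s52_eval_rsC4, rsC4_zero] at this

lemma s52_dvd_rsC6_sub {N t : ℤ} (h : N ∣ t) : N ∣ rsC6 c₄ c₆ t - c₆ := by
  have := Fermat.Agent.H46.dvd_eval_sub_eval_zero (rsC6 (C c₄) (C c₆) (X : ℤ[X])) h
  rwa [s52_eval_rsC6, s52_eval_rsC6, rsC6_zero] at this

lemma s52_dvd_rsDisc_sub {N t : ℤ} (h : N ∣ t) : N ∣ rsDisc c₄ c₆ t - 1 := by
  have := Fermat.Agent.H46.dvd_eval_sub_eval_zero (rsDisc (C c₄) (C c₆) (X : ℤ[X])) h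
  rwa [s52_eval_rsDisc, s52_eval_rsDisc, rsDisc_zero] at this

/-- The discriminant identity over `ℤ`, in the shape of WP-F. -/
lemma s52_disc_int (t : ℤ) :
    4 * (-27 * rsC4 c₄ c₆ t) ^ 3 + 27 * (-54 * rsC6 c₄ c₆ t) ^ 2 =
      (4 * (-27 * c₄) ^ 3 + 27 * (-54 * c₆) ^ 2) * rsDisc c₄ c₆ t ^ 5 := by
  have h := Fermat.Agent.H95.S52_hrel (-27 * c₄) (-54 * c₆) t
  rw [Fermat.Agent.H95.S52_A3_eq_rsC4, Fermat.Agent.H95.S52_B27_eq_rsC6,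
    Fermat.Agent.H95.S52_D_eq_rsDisc] at h
  have h27 : (27 : ℤ) ≠ 0 := by norm_num
  apply mul_left_cancel₀ h27
  linear_combination h

/-- A prime dividing both `rsC4(t)` (times `-27`) and `rsDisc(t)` divides `2 · 3 · 5 · 11 · (c₄³ - c₆²)`. -/
lemma s52_prime_dvd_of_common (t : ℤ) {p : ℤ} (hp : Prime p)
    (hA : p ∣ -27 * rsC4 c₄ c₆ t) (hD : p ∣ rsDisc c₄ c₆ t) :
    p ∣ 2 * 3 * 5 * 11 * (c₄ ^ 3 - c₆ ^ 2) := by
  -- Hessian identity: `p ∣ 11 * D1 ^ 2`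
  have hH := Fermat.Agent.H95.S52_hessian (-27 * c₄) (-54 * c₆) t
  rw [Fermat.Agent.H95.S52_A3_eq_rsC4, Fermat.Agent.H95.S52_D_eq_rsDisc] at hH
  have h1 : p ∣ 11 * Fermat.Agent.H95.S52_D1 (-27 * c₄) (-54 * c₆) t ^ 2 := by
    have e : 11 * Fermat.Agent.H95.S52_D1 (-27 * c₄) (-54 * c₆) t ^ 2 =
        12 * rsDisc c₄ c₆ t * Fermat.Agent.H95.S52_D2 (-27 * c₄) (-54 * c₆) t
          - 528 * (-27 * rsC4 c₄ c₆ t) := by
      linear_combination hH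
    rw [e]
    exact dvd_sub (Dvd.dvd.mul_right (Dvd.dvd.mul_left hD _) _) (Dvd.dvd.mul_left hA _)
  rcases hp.dvd_or_dvd h1 with h11 | hD1
  · -- `p ∣ 11`
    have : (2 * 3 * 5 * 11 * (c₄ ^ 3 - c₆ ^ 2) : ℤ) = 11 * (2 * 3 * 5 * (c₄ ^ 3 - c₆ ^ 2)) := by
      ring
    rw [this]
    exact Dvd.dvd.mul_right h11 _
  · have hD1' : p ∣ Fermat.Agent.H95.S52_D1 (-27 * c₄) (-54 * c₆) t := hp.dvd_of_dvd_pow hD1
    have hB := Fermat.Agent.H95.S52_bezout (-27 * c₄) (-54 * c₆) t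
    rw [Fermat.Agent.H95.S52_D_eq_rsDisc] at hB
    have h2 : p ∣ 1280000 * (4 * (-27 * c₄) ^ 3 + 27 * (-54 * c₆) ^ 2) ^ 4 := by
      rw [← hB]
      exact dvd_add (Dvd.dvd.mul_left hD _) (Dvd.dvd.mul_left hD1' _)
    have e2 : (1280000 * (4 * (-27 * c₄) ^ 3 + 27 * (-54 * c₆) ^ 2) ^ 4 : ℤ) =
        2 ^ 11 * 5 ^ 4 * ((2 ^ 2 * 3 ^ 9) ^ 4 * (c₄ ^ 3 - c₆ ^ 2) ^ 4) := by ring
    rw [e2] at h2
    have key : p ∣ 2 ∨ p ∣ 3 ∨ p ∣ 5 ∨ p ∣ (c₄ ^ 3 - c₆ ^ 2) := by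
      rcases hp.dvd_or_dvd h2 with h | h
      · rcases hp.dvd_or_dvd h with h | h
        · exact Or.inl (hp.dvd_of_dvd_pow h)
        · exact Or.inr (Or.inr (Or.inl (hp.dvd_of_dvd_pow h)))
      · rcases hp.dvd_or_dvd h with h | h
        · have h' := hp.dvd_of_dvd_pow h
          rcases hp.dvd_or_dvd h' with h'' | h''
          · exact Or.inl (hp.dvd_of_dvd_pow h'')
          · exact Or.inr (Or.inl (hp.dvd_of_dvd_pow h''))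
        · exact Or.inr (Or.inr (Or.inr (hp.dvd_of_dvd_pow h)))
    rcases key with h | h | h | h
    · exact Dvd.dvd.mul_right (Dvd.dvd.mul_right (Dvd.dvd.mul_right (Dvd.dvd.mul_right h _) _) _) _
    · exact Dvd.dvd.mul_right (Dvd.dvd.mul_right (Dvd.dvd.mul_right (Dvd.dvd.mul_left h _) _) _) _
    · exact Dvd.dvd.mul_right (Dvd.dvd.mul_right (Dvd.dvd.mul_left h _) _) _
    · exact Dvd.dvd.mul_left h _

/-- Integral coprimality of `A(t)` and `D(t)` for `t` divisible by `2·3·5·11·(c₄³ - c₆²)`. -/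
lemma s52_isCoprime (t : ℤ) (ht : 2 * 3 * 5 * 11 * (c₄ ^ 3 - c₆ ^ 2) ∣ t) :
    IsCoprime (-27 * rsC4 c₄ c₆ t) (rsDisc c₄ c₆ t) := by
  rw [Int.isCoprime_iff_gcd_eq_one]
  by_contra hg
  obtain ⟨q, hq, hqg⟩ := Nat.exists_prime_and_dvd hg
  have hp : Prime (q : ℤ) := Nat.prime_iff_prime_int.mp hq
  have hA : (q : ℤ) ∣ -27 * rsC4 c₄ c₆ t :=
    (Int.natCast_dvd_natCast.mpr hqg).trans (Int.gcd_dvd_left _ _)
  have hD : (q : ℤ) ∣ rsDisc c₄ c₆ t :=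
    (Int.natCast_dvd_natCast.mpr hqg).trans (Int.gcd_dvd_right _ _)
  have h1 : (q : ℤ) ∣ t := (s52_prime_dvd_of_common c₄ c₆ t hp hA hD).trans ht
  have h2 : (q : ℤ) ∣ rsDisc c₄ c₆ t - 1 := s52_dvd_rsDisc_sub c₄ c₆ h1
  have h3 : (q : ℤ) ∣ 1 := by
    have := dvd_sub hD h2
    simpa using this
  exact hp.not_isUnit (isUnit_of_dvd_one h3)

end values

/-! ## The final assembly -/

/-- **P-S52, final assembly**: the 3-5 switch, from the WP-D statement. -/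
theorem s52_of_wpd (hD : S52WPDStatement)
    (W : WeierstrassCurve ℤ) (hΔ : W.Δ ≠ 0) (hW : W.IsSemistableModel)
    (_h5 : W.ModRepIsIrreducible 5) :
    ∃ W' : WeierstrassCurve ℤ, W'.Δ ≠ 0 ∧ W'.IsSemistableModel ∧ W'.ModRepIsIrreducible 3 ∧
      ∀ ℓ : ℕ, ℓ.Prime → W.IsGoodPrimeFor ℓ → W'.IsGoodPrimeFor ℓ → ℓ ≠ 5 →
        (5 : ℤ) ∣ (W'.apOfModel ℓ - W.apOfModel ℓ) := by
  by_cases h3 : W.ModRepIsIrreducible 3
  · exact ⟨W, hΔ, hW, h3, fun ℓ _ _ _ _ => by simp⟩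
  -- `c₄³ - c₆² = 1728 Δ`
  have hrel : W.c₄ ^ 3 - W.c₆ ^ 2 = 1728 * W.Δ := by
    linear_combination (-1 : ℤ) * W.c_relation
  have hΔq : ((W.c₄ : ℤ) : ℚ) ^ 3 - ((W.c₆ : ℤ) : ℚ) ^ 2 ≠ 0 := by
    have h0 : W.c₄ ^ 3 - W.c₆ ^ 2 ≠ 0 := by
      rw [hrel]; exact mul_ne_zero (by norm_num) hΔ
    have : ((W.c₄ ^ 3 - W.c₆ ^ 2 : ℤ) : ℚ) ≠ 0 := by exact_mod_cast h0
    simpa using this
  -- the modulus
  have hMpos : 0 < 6 ^ 7 * 5 * 11 * 1728 * W.Δ.natAbs :=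
    Nat.mul_pos (by norm_num) (Int.natAbs_pos.mpr hΔ)
  obtain ⟨n, -, hMn, hDn, hroot⟩ := Fermat.Agent.H95.S52_rs_exists_specialization
    (W.c₄ : ℚ) (W.c₆ : ℚ) hΔq (6 ^ 7 * 5 * 11 * 1728 * W.Δ.natAbs) hMpos 0
  have hMt : ((6 ^ 7 * 5 * 11 * 1728 * W.Δ.natAbs : ℕ) : ℤ) ∣ (n : ℤ) :=
    Int.natCast_dvd_natCast.mpr hMn
  obtain ⟨k, hk⟩ : W.Δ ∣ |W.Δ| := (dvd_abs _ _).mpr dvd_rfl
  have hMcast : ((6 ^ 7 * 5 * 11 * 1728 * W.Δ.natAbs : ℕ) : ℤ) =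
      6 ^ 7 * 5 * 11 * 1728 * (W.Δ * k) := by
    push_cast
    rw [hk]
  rw [hMcast] at hMt
  have ht1 : (6 : ℤ) ^ 7 * W.Δ ∣ (n : ℤ) :=
    Dvd.dvd.trans ⟨5 * 11 * 1728 * k, by ring⟩ hMt
  have ht2 : 2 * 3 * 5 * 11 * (W.c₄ ^ 3 - W.c₆ ^ 2) ∣ (n : ℤ) := by
    rw [hrel]
    exact Dvd.dvd.trans ⟨6 ^ 6 * k, by ring⟩ hMt
  -- congruences
  have hA : (6 : ℤ) ^ 7 * W.Δ ∣ -27 * rsC4 W.c₄ W.c₆ (n : ℤ) + 27 * W.c₄ := by
    have h := s52_dvd_rsC4_sub W.c₄ W.c₆ ht1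
    have e : -27 * rsC4 W.c₄ W.c₆ (n : ℤ) + 27 * W.c₄ =
        -27 * (rsC4 W.c₄ W.c₆ (n : ℤ) - W.c₄) := by ring
    rw [e]
    exact Dvd.dvd.mul_left h _
  have hB : (6 : ℤ) ^ 7 * W.Δ ∣ -54 * rsC6 W.c₄ W.c₆ (n : ℤ) + 54 * W.c₆ := by
    have h := s52_dvd_rsC6_sub W.c₄ W.c₆ ht1
    have e : -54 * rsC6 W.c₄ W.c₆ (n : ℤ) + 54 * W.c₆ =
        -54 * (rsC6 W.c₄ W.c₆ (n : ℤ) - W.c₆) := by ring
    rw [e]
    exact Dvd.dvd.mul_left h _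
  obtain ⟨W', -, -, -, h4, h6, hΔ', hss, -, hap⟩ :=
    Fermat.Agent.H46.exists_semistable_model W hW _ _ _ hA hB
      (s52_disc_int W.c₄ W.c₆ n) (s52_isCoprime W.c₄ W.c₆ n ht2)
  have h4' : W'.c₄ = rsC4 W.c₄ W.c₆ (n : ℤ) :=
    mul_left_cancel₀ (by norm_num : (-27 : ℤ) ≠ 0) h4
  have h6' : W'.c₆ = rsC6 W.c₄ W.c₆ (n : ℤ) :=
    mul_left_cancel₀ (by norm_num : (-54 : ℤ) ≠ 0) h6
  have hDint : rsDisc W.c₄ W.c₆ (n : ℤ) ≠ 0 := by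
    intro h0
    apply hDn
    have e := map_rsDisc (Int.castRingHom ℚ) W.c₄ W.c₆ (n : ℤ)
    rw [h0] at e
    simpa using e.symm
  have hΔ'' : W'.Δ ≠ 0 := by
    rw [hΔ']
    exact mul_ne_zero hΔ (pow_ne_zero _ hDint)
  have h4q : (W'.c₄ : ℚ) = rsC4 (W.c₄ : ℚ) (W.c₆ : ℚ) (n : ℚ) := by
    rw [h4']
    have e := map_rsC4 (Int.castRingHom ℚ) W.c₄ W.c₆ (n : ℤ)
    simpa using e
  have h6q : (W'.c₆ : ℚ) = rsC6 (W.c₄ : ℚ) (W.c₆ : ℚ) (n : ℚ) := by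
    rw [h6']
    have e := map_rsC6 (Int.castRingHom ℚ) W.c₄ W.c₆ (n : ℤ)
    simpa using e
  refine ⟨W', hΔ'', hss,
    Fermat.Agent.H95.S52_rs_modRepIsIrreducible_three W' hΔ'' _ _ _ h4q h6q hroot, ?_⟩
  intro ℓ hℓ hg hg' hℓ5
  by_cases h23 : ℓ = 2 ∨ ℓ = 3
  · have hdvd : ((ℓ : ℕ) : ℤ) ∣ 6 * W.Δ := by
      rcases h23 with rfl | rfl
      · exact Dvd.dvd.mul_right (by norm_num) _
      · exact Dvd.dvd.mul_right (by norm_num) _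
    rw [hap ℓ hdvd, sub_self]
    exact dvd_zero _
  · obtain ⟨hℓ2, hℓ3⟩ := not_or.mp h23
    have hℓ4 : ℓ ≠ 4 := by
      rintro rfl
      norm_num at hℓ
    have h5le : 5 ≤ ℓ := by
      have := hℓ.two_le
      omega
    have : Fact ℓ.Prime := ⟨hℓ⟩
    obtain ⟨φ, hinj, heq⟩ := hD W W' n hΔ hΔ'' h4' h6'
    have hne : ∃ x : Submodule.torsionBy ℤ
        ((W.map (Int.castRingHom ℚ))⁄(AlgebraicClosure ℚ)).Point ((5 : ℕ) : ℤ), x ≠ 0 := by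
      have := nontrivial_torsionBy_five_int W hΔ
      exact exists_ne 0
    have key := Fermat.Agent.H4.dvd_apOfModel_sub W W' hg hg'
      (hasseRelation_reductionMod W ℓ h5le hg) (hasseRelation_reductionMod W' ℓ h5le hg')
      Nat.prime_five (by norm_num) hℓ5 φ hinj heq hne
    exact_mod_cast key

end Fermat.Agent.H40
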