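import Mathlib
import Fermat.Agent.H95.C1a

/-!
# P-X015 subtask X-C1b

On `E' : y^2 = x (x - 1) (x - 81)`, branch `x > 81`: `x - 1` is a square or `5 *` a square.
-/

namespace Fermat.Agent.H40

/-- Squares of odd integers are `1` modulo `8`. -/
lemma sq_emod_eight_of_odd (u : ℤ) (h : u % 2 = 1) : u ^ 2 % 8 = 1 := by
  have h8 : u % 8 = 1 ∨ u % 8 = 3 ∨ u % 8 = 5 ∨ u % 8 = 7 := by omega
  rcases h8 with h | h | h | h <;> simp [pow_two, Int.mul_emod, h]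

/-- Squares are `0`, `1` or `4` modulo `8`. -/
lemma sq_emod_eight (u : ℤ) : u ^ 2 % 8 = 0 ∨ u ^ 2 % 8 = 1 ∨ u ^ 2 % 8 = 4 := by
  have h8 : u % 8 = 0 ∨ u % 8 = 1 ∨ u % 8 = 2 ∨ u % 8 = 3 ∨ u % 8 = 4 ∨ u % 8 = 5 ∨
      u % 8 = 6 ∨ u % 8 = 7 := by omega
  rcases h8 with h | h | h | h | h | h | h | h <;> simp [pow_two, Int.mul_emod, h]

/-- Squares of even integers are `0` or `4` modulo `8`. -/
lemma sq_emod_eight_of_even (u : ℤ) (h : u % 2 = 0) : u ^ 2 % 8 = 0 ∨ u ^ 2 % 8 = 4 := by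
  have h8 : u % 8 = 0 ∨ u % 8 = 2 ∨ u % 8 = 4 ∨ u % 8 = 6 := by omega
  rcases h8 with h | h | h | h <;> simp [pow_two, Int.mul_emod, h]

/-- Coprime integers are not both even. -/
lemma not_both_even_of_isCoprime {a b : ℤ} (h : IsCoprime a b) : ¬ (a % 2 = 0 ∧ b % 2 = 0) := by
  rintro ⟨ha, hb⟩
  have h2a : (2 : ℤ) ∣ a := Int.dvd_of_emod_eq_zero ha
  have h2b : (2 : ℤ) ∣ b := Int.dvd_of_emod_eq_zero hb
  have : IsUnit (2 : ℤ) := h.isUnit_of_dvd' h2a h2b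
  rw [Int.isUnit_iff] at this
  omega

lemma both_odd_of_even_diff (u e : ℤ) (hue : ¬ (u % 2 = 0 ∧ e % 2 = 0))
    (h : (u ^ 2 - e ^ 2) % 2 = 0) : u % 2 = 1 ∧ e % 2 = 1 := by
  have hu : u % 2 = 0 ∨ u % 2 = 1 := by omega
  have he : e % 2 = 0 ∨ e % 2 = 1 := by omega
  have hu2 : u ^ 2 % 2 = u % 2 := by
    rcases hu with h | h <;> simp [pow_two, Int.mul_emod, h]
  have he2 : e ^ 2 % 2 = e % 2 := by
    rcases he with h | h <;> simp [pow_two, Int.mul_emod, h]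
  omega

lemma bad_two (u e a b : ℤ) (hue : ¬ (u % 2 = 0 ∧ e % 2 = 0)) (hab : ¬ (a % 2 = 0 ∧ b % 2 = 0))
    (hA : u ^ 2 - e ^ 2 = 2 * a ^ 2) (hB : u ^ 2 - 81 * e ^ 2 = 2 * b ^ 2) : False := by
  obtain ⟨hu, he⟩ := both_odd_of_even_diff u e hue (by omega)
  have hu8 := sq_emod_eight_of_odd u hu
  have he8 := sq_emod_eight_of_odd e he
  have ha : a % 2 = 0 := by
    by_contra hcon
    have := sq_emod_eight_of_odd a (by omega)
    omega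
  have hb : b % 2 = 0 := by
    by_contra hcon
    have := sq_emod_eight_of_odd b (by omega)
    omega
  exact hab ⟨ha, hb⟩

lemma bad_ten (u e a b : ℤ) (hue : ¬ (u % 2 = 0 ∧ e % 2 = 0)) (hab : ¬ (a % 2 = 0 ∧ b % 2 = 0))
    (hA : u ^ 2 - e ^ 2 = 10 * a ^ 2) (hB : u ^ 2 - 81 * e ^ 2 = 10 * b ^ 2) : False := by
  obtain ⟨hu, he⟩ := both_odd_of_even_diff u e hue (by omega)
  have hu8 := sq_emod_eight_of_odd u hu
  have he8 := sq_emod_eight_of_odd e he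
  have ha : a % 2 = 0 := by
    by_contra hcon
    have := sq_emod_eight_of_odd a (by omega)
    omega
  have hb : b % 2 = 0 := by
    by_contra hcon
    have := sq_emod_eight_of_odd b (by omega)
    omega
  exact hab ⟨ha, hb⟩

lemma bad_eight (u e a b : ℤ) (hue : ¬ (u % 2 = 0 ∧ e % 2 = 0))
    (hA : u ^ 2 - e ^ 2 = 8 * a ^ 2) (hB : u ^ 2 - 81 * e ^ 2 = 8 * b ^ 2) : False := by
  obtain ⟨hu, he⟩ := both_odd_of_even_diff u e hue (by omega)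
  have he8 := sq_emod_eight_of_odd e he
  have ha8 := sq_emod_eight a
  have hb8 := sq_emod_eight b
  omega

lemma bad_forty (u e a b : ℤ) (hue : ¬ (u % 2 = 0 ∧ e % 2 = 0))
    (hA : u ^ 2 - e ^ 2 = 40 * a ^ 2) (hB : u ^ 2 - 81 * e ^ 2 = 40 * b ^ 2) : False := by
  obtain ⟨hu, he⟩ := both_odd_of_even_diff u e hue (by omega)
  have he8 := sq_emod_eight_of_odd e he
  have ha8 := sq_emod_eight a
  have hb8 := sq_emod_eight b
  omega

/-- Integer core of C1b. -/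
lemma int_core (u e : ℤ) (hcop : IsCoprime u e) (hB : 0 < u ^ 2 - 81 * e ^ 2)
    (hsq : IsSquare ((u ^ 2 - e ^ 2) * (u ^ 2 - 81 * e ^ 2))) :
    IsSquare (u ^ 2 - e ^ 2) ∨ IsSquare (5 * (u ^ 2 - e ^ 2)) := by
  obtain ⟨A, hA⟩ : ∃ A : ℤ, A = u ^ 2 - e ^ 2 := ⟨_, rfl⟩
  obtain ⟨B, hBdef⟩ : ∃ B : ℤ, B = u ^ 2 - 81 * e ^ 2 := ⟨_, rfl⟩
  rw [← hA, ← hBdef] at hsq
  rw [← hBdef] at hB
  rw [← hA]
  have hApos : 0 < A := by nlinarith [sq_nonneg e]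
  have hdiff : A - B = 80 * e ^ 2 := by rw [hA, hBdef]; ring
  -- coprimality of A and e
  have hAe : IsCoprime A e := by
    have h1 : IsCoprime (u ^ 2) e := hcop.pow_left
    have h2 : IsCoprime (u ^ 2 + e * (-e)) e := IsCoprime.add_mul_left_left h1 (-e)
    have h3 : u ^ 2 + e * (-e) = A := by rw [hA]; ring
    rwa [h3] at h2
  -- the gcd
  have hgpos : 0 < Int.gcd A B := Int.gcd_pos_of_ne_zero_left B hApos.ne'
  have hcop₁ : Int.gcd (A / (Int.gcd A B : ℤ)) (B / (Int.gcd A B : ℤ)) = 1 :=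
    Int.gcd_div_gcd_div_gcd hgpos
  obtain ⟨g, hg⟩ : ∃ g : ℕ, g = Int.gcd A B := ⟨_, rfl⟩
  rw [← hg] at hgpos hcop₁
  have hgA : (g : ℤ) ∣ A := hg ▸ Int.gcd_dvd_left A B
  have hgB : (g : ℤ) ∣ B := hg ▸ Int.gcd_dvd_right A B
  have hg80 : (g : ℤ) ∣ 80 := by
    have h1 : (g : ℤ) ∣ 80 * e ^ 2 := by rw [← hdiff]; exact dvd_sub hgA hgB
    have h2 : IsCoprime (g : ℤ) (e ^ 2) := (hAe.of_isCoprime_of_dvd_left hgA).pow_right
    exact h2.dvd_of_dvd_mul_right h1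
  have hg80' : g ∣ 80 := by exact_mod_cast hg80
  -- quotients
  have hgz : (g : ℤ) ≠ 0 := by exact_mod_cast hgpos.ne'
  have hgposZ : (0 : ℤ) < g := by exact_mod_cast hgpos
  obtain ⟨A₁, hA₁⟩ := hgA
  obtain ⟨B₁, hB₁⟩ := hgB
  have hAdiv : A / (g : ℤ) = A₁ := by rw [hA₁]; exact Int.mul_ediv_cancel_left _ hgz
  have hBdiv : B / (g : ℤ) = B₁ := by rw [hB₁]; exact Int.mul_ediv_cancel_left _ hgz
  rw [hAdiv, hBdiv] at hcop₁
  have hA₁pos : 0 < A₁ := by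
    rw [hA₁] at hApos
    exact (mul_pos_iff_of_pos_left hgposZ).mp hApos
  have hB₁pos : 0 < B₁ := by
    rw [hB₁] at hB
    exact (mul_pos_iff_of_pos_left hgposZ).mp hB
  -- A₁ * B₁ is a square
  obtain ⟨c, hc⟩ := hsq
  have hgc : (g : ℤ) ∣ c := by
    have h1 : (g : ℤ) ^ 2 ∣ c ^ 2 := by
      refine ⟨A₁ * B₁, ?_⟩
      rw [pow_two c, ← hc, hA₁, hB₁]; ring
    exact (Int.pow_dvd_pow_iff two_ne_zero).mp h1
  obtain ⟨c₁, hc₁⟩ := hgc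
  have hprod : A₁ * B₁ = c₁ ^ 2 := by
    have h1 : (g : ℤ) ^ 2 * (A₁ * B₁) = (g : ℤ) ^ 2 * c₁ ^ 2 := by
      have : A * B = c * c := hc
      rw [hA₁, hB₁, hc₁] at this
      linear_combination this
    exact mul_left_cancel₀ (pow_ne_zero 2 hgz) h1
  obtain ⟨a₀, ha₀⟩ : ∃ a₀ : ℤ, A₁ = a₀ ^ 2 := by
    obtain ⟨a₀, h | h⟩ := Int.sq_of_gcd_eq_one hcop₁ hprod
    · exact ⟨a₀, h⟩
    · exfalso; nlinarith [sq_nonneg a₀]
  obtain ⟨b₀, hb₀⟩ : ∃ b₀ : ℤ, B₁ = b₀ ^ 2 := by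
    have hcop₂ : Int.gcd B₁ A₁ = 1 := by rw [Int.gcd_comm]; exact hcop₁
    have hprod₂ : B₁ * A₁ = c₁ ^ 2 := by rw [mul_comm]; exact hprod
    obtain ⟨b₀, h | h⟩ := Int.sq_of_gcd_eq_one hcop₂ hprod₂
    · exact ⟨b₀, h⟩
    · exfalso; nlinarith [sq_nonneg b₀]
  -- a₀ and b₀ are not both even
  have hab : ¬ (a₀ % 2 = 0 ∧ b₀ % 2 = 0) := by
    apply not_both_even_of_isCoprime
    have h1 : IsCoprime A₁ B₁ := Int.isCoprime_iff_gcd_eq_one.mpr hcop₁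
    rw [ha₀, hb₀] at h1
    exact (IsCoprime.pow_left_iff (by norm_num)).mp ((IsCoprime.pow_right_iff (by norm_num)).mp h1)
  have hue : ¬ (u % 2 = 0 ∧ e % 2 = 0) := not_both_even_of_isCoprime hcop
  have hgmem : g ∈ Nat.divisors 80 := Nat.mem_divisors.mpr ⟨hg80', by norm_num⟩
  have hdivs : Nat.divisors 80 = {1, 2, 4, 5, 8, 10, 16, 20, 40, 80} := by decide
  rw [hdivs] at hgmem
  simp only [Finset.mem_insert, Finset.mem_singleton] at hgmem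
  rw [ha₀] at hA₁
  rw [hb₀] at hB₁
  rw [hA] at hA₁
  rw [hBdef] at hB₁
  rw [hA]
  rcases hgmem with rfl | rfl | rfl | rfl | rfl | rfl | rfl | rfl | rfl | rfl
  · -- g = 1
    left; exact ⟨a₀, by rw [hA₁]; push_cast; ring⟩
  · -- g = 2
    exact (bad_two u e a₀ b₀ hue hab (by exact_mod_cast hA₁) (by exact_mod_cast hB₁)).elim
  · -- g = 4
    left; exact ⟨2 * a₀, by rw [hA₁]; push_cast; ring⟩
  · -- g = 5
    right; exact ⟨5 * a₀, by rw [hA₁]; push_cast; ring⟩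
  · -- g = 8
    exact (bad_eight u e a₀ b₀ hue (by exact_mod_cast hA₁) (by exact_mod_cast hB₁)).elim
  · -- g = 10
    exact (bad_ten u e a₀ b₀ hue hab (by exact_mod_cast hA₁) (by exact_mod_cast hB₁)).elim
  · -- g = 16
    left; exact ⟨4 * a₀, by rw [hA₁]; push_cast; ring⟩
  · -- g = 20
    right; exact ⟨10 * a₀, by rw [hA₁]; push_cast; ring⟩
  · -- g = 40
    exact (bad_forty u e a₀ b₀ hue (by exact_mod_cast hA₁) (by exact_mod_cast hB₁)).elim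
  · -- g = 80
    right; exact ⟨20 * a₀, by rw [hA₁]; push_cast; ring⟩


/-- `C1b` assuming that `x` is a square (which is `C1a`). -/
theorem C1b_of_isSquare (x y : ℚ) (hx : 81 < x) (h : y ^ 2 = x * (x - 1) * (x - 81))
    (hxsq : IsSquare x) : IsSquare (x - 1) ∨ IsSquare (5 * (x - 1)) := by
  obtain ⟨⟨u, hu⟩, ⟨e, he⟩⟩ := Rat.isSquare_iff.mp hxsq
  have hden_pos : 0 < x.den := x.den_pos
  have he0 : e ≠ 0 := by
    rintro rfl
    simp at he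
  have heQ : (e : ℚ) ≠ 0 := by exact_mod_cast he0
  have hxpos : (0 : ℚ) < x := by linarith
  have hnum_pos : 0 < x.num := Rat.num_pos.mpr hxpos
  have hu0 : u ≠ 0 := by
    rintro rfl
    rw [hu] at hnum_pos
    simp at hnum_pos
  have huQ : (u : ℚ) ≠ 0 := by exact_mod_cast hu0
  -- x = u^2 / e^2
  have hxeq : x = (u : ℚ) ^ 2 / (e : ℚ) ^ 2 := by
    have h1 : x = (x.num : ℚ) / (x.den : ℚ) := (Rat.num_div_den x).symm
    rw [h1, hu, he]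
    push_cast
    ring
  -- coprimality
  have hcop : IsCoprime u (e : ℤ) := by
    have h1 : Nat.Coprime x.num.natAbs x.den := x.reduced
    have h2 : IsCoprime x.num (x.den : ℤ) := by
      rw [Int.isCoprime_iff_gcd_eq_one]
      simpa [Int.gcd_eq_natAbs] using h1
    rw [hu, he] at h2
    push_cast at h2
    exact (h2.of_mul_left_left).of_mul_right_left
  -- positivity of B
  have hBpos : 0 < u ^ 2 - 81 * (e : ℤ) ^ 2 := by
    have h1 : (81 : ℚ) < (u : ℚ) ^ 2 / (e : ℚ) ^ 2 := by rw [← hxeq]; exact hx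
    have he2 : (0 : ℚ) < (e : ℚ) ^ 2 := by positivity
    rw [lt_div_iff₀ he2] at h1
    have h2 : ((81 * (e : ℤ) ^ 2 : ℤ) : ℚ) < ((u ^ 2 : ℤ) : ℚ) := by push_cast; linarith
    have h3 : 81 * (e : ℤ) ^ 2 < u ^ 2 := by exact_mod_cast h2
    linarith
  -- the product is a square
  have hsq : IsSquare ((u ^ 2 - (e : ℤ) ^ 2) * (u ^ 2 - 81 * (e : ℤ) ^ 2)) := by
    rw [← Rat.isSquare_intCast_iff]
    refine ⟨y * (e : ℚ) ^ 3 / (u : ℚ), ?_⟩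
    have h1 : y ^ 2 = (u : ℚ) ^ 2 / (e : ℚ) ^ 2 * ((u : ℚ) ^ 2 / (e : ℚ) ^ 2 - 1) *
        ((u : ℚ) ^ 2 / (e : ℚ) ^ 2 - 81) := by rw [← hxeq]; exact h
    have h2 : y ^ 2 * (e : ℚ) ^ 6 =
        (u : ℚ) ^ 2 * (((u : ℚ) ^ 2 - (e : ℚ) ^ 2) * ((u : ℚ) ^ 2 - 81 * (e : ℚ) ^ 2)) := by
      rw [h1]
      field_simp
    push_cast
    have h3 : y * (e : ℚ) ^ 3 / (u : ℚ) * (y * (e : ℚ) ^ 3 / (u : ℚ)) =
        y ^ 2 * (e : ℚ) ^ 6 / (u : ℚ) ^ 2 := by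
      field_simp
    rw [h3, h2]
    field_simp
  rcases int_core u e hcop hBpos hsq with ⟨a, ha⟩ | ⟨c, hc⟩
  · left
    refine ⟨(a : ℚ) / (e : ℚ), ?_⟩
    have ha' : ((u : ℚ) ^ 2 - (e : ℚ) ^ 2) = (a : ℚ) * (a : ℚ) := by exact_mod_cast ha
    rw [hxeq]
    field_simp
    linear_combination ha'
  · right
    refine ⟨(c : ℚ) / (e : ℚ), ?_⟩
    have hc' : 5 * ((u : ℚ) ^ 2 - (e : ℚ) ^ 2) = (c : ℚ) * (c : ℚ) := by exact_mod_cast hc
    rw [hxeq]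
    field_simp
    linear_combination hc'

/-- **X-C1b**: on `y^2 = x (x - 1) (x - 81)` with `x > 81`, `x - 1` is a square or `5` times a
square. -/
theorem C1b_isSquare_x_sub_one (x y : ℚ) (hx : 81 < x) (h : y ^ 2 = x * (x - 1) * (x - 81)) :
    IsSquare (x - 1) ∨ IsSquare (5 * (x - 1)) :=
  C1b_of_isSquare x y hx h (Fermat.Agent.H95.C1a_isSquare_x x y hx h)

end Fermat.Agent.H40
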